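import Fermat.Agent.S19.Loc.Glue
import Fermat.Agent.S19.RL.Coord
import Fermat.Agent.S19.LD.Main
import Fermat.Agent.S19.A.TopJ
import Fermat.Agent.S19.A.Closure.Main
import Fermat.Agent.S37.Mod.Normal
import Fermat.Agent.S37.Mod.Inst
import Fermat.Agent.Crux.GM.CoordH

/-!
# S19 / Wire : the final wiring of S19
-/

set_option autoImplicit false
set_option linter.unusedSectionVars false
set_option linter.style.haveILetI false

open AlgebraicCurve ModularCurve

namespace Fermat.Agent.S19.Wire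

open Fermat.Agent.S19.A (Qb GQ HasFlatModel IsGalAction)
open Fermat.Agent.ES (FF)
open Fermat.Agent.S37.Mod (gaussVFF resF kA xQ xk)
open Fermat.Agent.S19.Geo0 (Good RatStr FixF)
open Fermat.Agent.S19.RL (βG fixR)
open Fermat.Agent.S19.Loc (Coord βI)

noncomputable section

/-- the inertia group of `A` acting on the modular function field. -/
def αI (M : ℕ) (A : ValuationSubring Qb) : (A.inertiaSubgroupIn ℚ) →* SemilinearAut Qb (FF M) :=
  (arithmeticGalois (modularFunctionFieldFull M)).comp (A.inertiaSubgroupIn ℚ).subtype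

theorem αI_injective (M : ℕ) (A : ValuationSubring Qb) : Function.Injective (αI M A) := by
  intro σ τ h
  apply Subtype.ext
  have h1 := congrArg SemilinearAut.baseAut h
  ext a
  exact congrArg (fun e : RingAut Qb => e a) h1

/-- `SubquotClosed` from the closure properties (A3). -/
theorem subquotClosed (ℓ : ℕ) [Fact ℓ.Prime] : LD.SubquotClosed ℓ := by
  intro G X _ _ actG actX S hS φ hφ heq hG
  exact (hG.subgroup S hS).of_surjective φ hφ heq

/-- the coordinates for the inertia group itself. -/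
theorem exists_coord_inertia {M ℓ : ℕ} [NeZero M] {A : ValuationSubring Qb} {y : FF M}
    {yt : resF M A} (hG : Good (gaussVFF M A) y yt)
    (hR : RatStr (αI M A) (gaussVFF M A) (ℓ : Qb) y) :
    ∃ (g : ℕ) (z : JZero M → Fin g → Qb),
      Coord A (βI (A.inertiaSubgroupIn ℚ)) (RL.J1 hG) z := by
  obtain ⟨g, z, hz⟩ := RL.exists_coord hG hR
  refine ⟨g, z, hz.of_mulEquiv (MonoidHom.ofInjective (αI_injective M A)) (fun σ => ?_)
    (fun σ u => ?_)⟩
  · rfl
  · rfl

/-- **S19 at admissible levels**, given the rational structure. -/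
theorem hasFlatModel_of_ratStr {M ℓ : ℕ} [NeZero M] [Fact ℓ.Prime] {A : ValuationSubring Qb}
    (hA : A.LiesOverPrime ℓ) {y : FF M} {yt : resF M A} (hG : Good (gaussVFF M A) y yt)
    (hR : RatStr (αI M A) (gaussVFF M A) (ℓ : Qb) y) (k : ℕ) :
    HasFlatModel ℓ (Submodule.torsionBy ℤ (JZero M) ((ℓ : ℤ) ^ k)) (LD.actT M ((ℓ : ℤ) ^ k)) := by
  obtain ⟨g, z, hz⟩ := exists_coord_inertia hG hR
  have hℓ : (ℓ : ℤ) ^ k ≠ 0 := pow_ne_zero _ (by exact_mod_cast (Fact.out : ℓ.Prime).ne_zero)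
  haveI := Fermat.Agent.S19.A.finite_torsionBy M ((ℓ : ℤ) ^ k) hℓ
  exact Loc.hasFlatModel_of_coord_inertia (Fermat.Agent.S19.A.isGalAction_torsAct M ((ℓ : ℤ) ^ k)) hA hz
    (Submodule.torsionBy ℤ (JZero M) ((ℓ : ℤ) ^ k)).subtype.toAddMonoidHom
    Subtype.val_injective (fun σ x => rfl)

/-- the good coordinate has integral coefficients, so it is fixed by Galois. -/
theorem fixF_xQ {M ℓ : ℕ} [NeZero M] {xh : LaurentSeries ℤ} {β : ℤ} {n : ℕ}
    (hx : Crux.GM.GoodCoord M ℓ xh β n) (A : ValuationSubring Qb) : FixF (αI M A) (xQ hx) := by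
  intro σ
  apply Subtype.ext
  show coeffMap (((σ : GQ) : Qb ≃ₐ[ℚ] Qb) : Qb →+* Qb) (Crux.GM.castS Qb xh) = Crux.GM.castS Qb xh
  ext m
  rw [coeffMap_coeff]
  simp [Crux.GM.castS]

/-- **the frozen S19**, given the rational structure at admissible levels. -/
theorem result_of_ratStr (p : ℕ) [NeZero p] (ℓ : ℕ) [Fact ℓ.Prime] (hℓp : ¬ ℓ ∣ p) (k : ℕ)
    (hRat : ∀ (M : ℕ) [NeZero M] (A : ValuationSubring Qb), A.LiesOverPrime ℓ → ∀ y : FF M,
      FixF (αI M A) y → RatStr (αI M A) (gaussVFF M A) (ℓ : Qb) y) :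
    ∃ (H : Type) (_ : CommRing H) (_ : HopfAlgebra (GaloisRep.ratLocalizedAt ℓ) H),
      Module.Finite (GaloisRep.ratLocalizedAt ℓ) H ∧ Module.Flat (GaloisRep.ratLocalizedAt ℓ) H ∧
      Coalgebra.IsCocomm (GaloisRep.ratLocalizedAt ℓ) H ∧
      ∃ e : WithConv (H →ₐ[GaloisRep.ratLocalizedAt ℓ] AlgebraicClosure ℚ) ≃
          ↥(Submodule.torsionBy ℤ (JZero p) ((ℓ : ℤ) ^ k)),
        (∀ f g, e (f * g) = e f + e g) ∧
        ∀ (σ : AlgebraicClosure ℚ ≃ₐ[ℚ] AlgebraicClosure ℚ)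
          (f g : WithConv (H →ₐ[GaloisRep.ratLocalizedAt ℓ] AlgebraicClosure ℚ)),
          (∀ h : H, g h = σ (f h)) → ((e g : JZero p)) = σ • (e f : JZero p) := by
  have hℓ : ℓ.Prime := Fact.out
  refine LD.result_of (LD.hasFlatModel_of_admissible hℓ (subquotClosed ℓ)
    (fun M _ hM hadm k => ?_) p hℓp k)
  obtain ⟨xh, β, n, hx⟩ := Crux.GM.exists_goodCoord M ℓ hℓ hM hadm
  obtain ⟨A, hA⟩ := S54.exists_liesOverPrime ℓ hℓ
  exact hasFlatModel_of_ratStr hA
    ⟨S37.Mod.isChart_goodCoord hℓ hx hA, S37.Mod.isChart_goodCoord_inv hℓ hx hA⟩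
    (hRat M A hA _ (fixF_xQ hx A)) k

end

end Fermat.Agent.S19.Wire
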